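import Mathlib

set_option autoImplicit false

namespace Fermat.Agent.S22Aux

/-- A `ℤ`-subalgebra of `End_ℂ V` generated by operators preserving a finitely generated
`ℤ`-lattice which spans `V` is a finite `ℤ`-module. -/
theorem finite_adjoin_of_lattice {V : Type*} [AddCommGroup V] [Module ℂ V]
    (L : Submodule ℤ V) (hL : L.FG) (hspan : Submodule.span ℂ (L : Set V) = ⊤)
    (gens : Set (Module.End ℂ V)) (hgens : ∀ T ∈ gens, ∀ x ∈ L, T x ∈ L) :
    Module.Finite ℤ (Algebra.adjoin ℤ gens) := by
  have hpres : ∀ T ∈ Algebra.adjoin ℤ gens, ∀ x ∈ L, T x ∈ L := by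
    intro T hT
    induction hT using Algebra.adjoin_induction with
    | mem T hT => exact hgens T hT
    | algebraMap r =>
      intro x hx
      have : (algebraMap ℤ (Module.End ℂ V) r) x = r • x := by
        simp [Algebra.algebraMap_eq_smul_one]
      rw [this]
      exact L.smul_mem r hx
    | add T T' _ _ h h' => intro x hx; exact L.add_mem (h x hx) (h' x hx)
    | mul T T' _ _ h h' => intro x hx; exact h _ (h' x hx)
  have : Module.Finite ℤ L := Module.Finite.iff_fg.mpr hL
  obtain ⟨s, hs⟩ := hL
  -- evaluate at the generators
  let ρ : Algebra.adjoin ℤ gens →ₗ[ℤ] (s → L) :=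
    { toFun := fun T x => ⟨(T : Module.End ℂ V) x, hpres T T.2 x (hs ▸ Submodule.subset_span x.2)⟩
      map_add' := fun T T' => by ext x; simp
      map_smul' := fun r T => by ext x; simp }
  have hinj : Function.Injective ρ := by
    rw [injective_iff_map_eq_zero]
    intro T hT
    apply Subtype.ext
    have h1 : ∀ x ∈ s, (T : Module.End ℂ V) x = 0 := by
      intro x hx
      have := congrFun hT ⟨x, hx⟩
      exact congrArg Subtype.val this
    have h2 : ∀ x ∈ L, (T : Module.End ℂ V) x = 0 := by
      intro x hx
      rw [← hs] at hx
      induction hx using Submodule.span_induction with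
      | mem x hx => exact h1 x hx
      | zero => simp
      | add x y _ _ hx hy => rw [map_add, hx, hy, add_zero]
      | smul r x _ hx => rw [map_zsmul, hx, smul_zero]
    apply LinearMap.ext_on_range (v := fun x : L => (x : V))
    · rw [Subtype.range_coe_subtype]
      exact hspan
    · intro x
      simpa using h2 x x.2
  exact Module.Finite.of_injective ρ hinj

end Fermat.Agent.S22Aux
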