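import Mathlib

set_option autoImplicit false

namespace Fermat.Agent.S22Aux

open UpperHalfPlane Finset

theorem diag_deriv_aux (w : ℕ) (f : ℍ → ℂ) (A : ℕ → ℍ → ℂ)
    (hA : ∀ n (τ : ℍ), HasDerivAt (fun z : ℂ => A n (ofComplex z))
      (f τ * (w.choose n) * (-(τ : ℂ)) ^ (w - n)) τ)
    (hc : ∃ c, ∀ τ : ℍ, ∑ n ∈ range (w + 1), A n τ * (τ : ℂ) ^ n = c) (τ : ℍ) :
    f τ * (0 : ℂ) ^ w + ∑ n ∈ range (w + 1), A n τ * (n * (τ : ℂ) ^ (n - 1)) = 0 := by
  obtain ⟨c, hc⟩ := hc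
  have hD : HasDerivAt (fun z : ℂ => ∑ n ∈ range (w + 1), A n (ofComplex z) * z ^ n)
      (∑ n ∈ range (w + 1), ((f τ * (w.choose n) * (-(τ : ℂ)) ^ (w - n)) * (τ : ℂ) ^ n +
        A n (ofComplex (τ : ℂ)) * (n * (τ : ℂ) ^ (n - 1)))) τ :=
    HasDerivAt.fun_sum fun n _ => (hA n τ).mul (hasDerivAt_pow n (τ : ℂ))
  have hD0 : HasDerivAt (fun z : ℂ => ∑ n ∈ range (w + 1), A n (ofComplex z) * z ^ n) 0 τ := by
    refine (hasDerivAt_const (τ : ℂ) c).congr_of_eventuallyEq ?_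
    filter_upwards [isOpen_upperHalfPlaneSet.mem_nhds τ.im_pos] with z hz
    have := hc ⟨z, hz⟩
    rw [ofComplex_apply_of_im_pos hz]
    exact this
  have huniq := hD.unique hD0
  rw [Finset.sum_add_distrib] at huniq
  have h1 : f τ * (0 : ℂ) ^ w =
      ∑ x ∈ range (w + 1), f τ * ↑(w.choose x) * (-(τ : ℂ)) ^ (w - x) * (τ : ℂ) ^ x := by
    have : (0 : ℂ) = (τ : ℂ) + (-(τ : ℂ)) := by ring
    rw [this, add_pow, Finset.mul_sum]
    refine Finset.sum_congr rfl fun n _ => ?_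
    ring
  rw [h1]
  simp only [ofComplex_apply] at huniq
  exact huniq

/-- If the "diagonal restriction" of a primitive is constant then `f = 0`. -/
theorem eq_zero_of_diag_const : ∀ (w : ℕ) (f : ℍ → ℂ) (A : ℕ → ℍ → ℂ),
    (∀ n (τ : ℍ), HasDerivAt (fun z : ℂ => A n (ofComplex z))
      (f τ * (w.choose n) * (-(τ : ℂ)) ^ (w - n)) τ) →
    (∃ c, ∀ τ : ℍ, ∑ n ∈ range (w + 1), A n τ * (τ : ℂ) ^ n = c) → f = 0 := by
  intro w
  induction w with
  | zero =>
    intro f A hA hc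
    funext τ
    have := diag_deriv_aux 0 f A hA hc τ
    simpa using this
  | succ w ih =>
    intro f A hA hc
    have key : ∀ τ : ℍ, ∑ m ∈ range (w + 1), (((m : ℂ) + 1) * A (m + 1) τ) * (τ : ℂ) ^ m = 0 := by
      intro τ
      have := diag_deriv_aux (w + 1) f A hA hc τ
      rw [Finset.sum_range_succ'] at this
      simp only [ne_eq, Nat.add_eq_zero_iff, one_ne_zero, and_false, not_false_eq_true, zero_pow,
        mul_zero, Nat.cast_add, Nat.cast_one, Nat.add_sub_cancel, Nat.cast_zero, zero_mul,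
        add_zero, zero_add] at this
      rw [← this]
      refine Finset.sum_congr rfl fun m _ => ?_
      ring
    have h1 := ih (fun τ => ((w : ℂ) + 1) * f τ) (fun m τ => ((m : ℂ) + 1) * A (m + 1) τ)
      (fun m τ => by
        have h2 := (hA (m + 1) τ).const_mul ((m : ℂ) + 1)
        refine h2.congr_deriv ?_
        have h3 : ((w + 1 : ℕ) : ℂ) * (w.choose m : ℂ) = ((w + 1).choose (m + 1) : ℂ) * ((m + 1 : ℕ) : ℂ) := by
          exact_mod_cast Nat.add_one_mul_choose_eq w m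
        push_cast at h3
        rw [show w + 1 - (m + 1) = w - m by omega]
        linear_combination (-(f τ * (-(τ : ℂ)) ^ (w - m))) * h3)
      ⟨0, key⟩
    funext τ
    have h4 := congrFun h1 τ
    simp only [Pi.zero_apply, mul_eq_zero] at h4
    rcases h4 with h4 | h4
    · exfalso
      have : ((w + 1 : ℕ) : ℂ) = 0 := by push_cast; exact h4
      exact Nat.cast_ne_zero.mpr (Nat.succ_ne_zero w) this
    · exact h4

end Fermat.Agent.S22Aux
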