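import Mathlib

set_option autoImplicit false

namespace Fermat.Agent.S22Aux

open Function Complex Filter Topology Asymptotics

local notation "I∞" => comap im atTop
local notation "𝕢" => Periodic.qParam

theorem qParam_periodic_aux {h : ℝ} (hh : h ≠ 0) : Periodic (𝕢 h) (h : ℂ) := by
  intro z
  have hh' : (h : ℂ) ≠ 0 := by exact_mod_cast hh
  simp only [Periodic.qParam]
  rw [show 2 * (Real.pi : ℂ) * I * (z + h) / h = 2 * Real.pi * I * z / h + 2 * Real.pi * I by
    field_simp]
  rw [Complex.exp_add, Complex.exp_two_pi_mul_I, mul_one]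

theorem tendsto_poly_mul_exp_aux (K a c : ℝ) (hc : 0 < c) (m : ℕ) :
    Tendsto (fun y : ℝ => K * (a + y) ^ m * Real.exp (-(c * y))) atTop (𝓝 0) := by
  have h1 : Tendsto (fun y : ℝ => c * (a + y)) atTop atTop :=
    (tendsto_atTop_add_const_left _ a tendsto_id).const_mul_atTop hc
  have h2 := (Real.tendsto_pow_mul_exp_neg_atTop_nhds_zero m).comp h1
  have h3 := h2.const_mul (K * (c ^ m)⁻¹ * Real.exp (c * a))
  rw [mul_zero] at h3
  refine h3.congr fun y => ?_
  simp only [Function.comp_apply]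
  have hcm : c ^ m ≠ 0 := pow_ne_zero _ hc.ne'
  rw [mul_pow, show -(c * (a + y)) = -(c * a) + -(c * y) by ring, Real.exp_add, Real.exp_neg (c * a)]
  have he : Real.exp (c * a) ≠ 0 := (Real.exp_pos _).ne'
  field_simp

/-- A periodic holomorphic function of polynomial growth is bounded at `i∞`. -/
theorem bounded_of_periodic_of_poly_growth {F : ℂ → ℂ} {h : ℝ} (hh : 0 < h)
    (hper : Periodic F (h : ℂ)) (hhol : ∀ᶠ z in I∞, DifferentiableAt ℂ F z) {K A : ℝ} {m : ℕ}
    (hK : 0 ≤ K) (hgrow : ∀ z : ℂ, A ≤ z.im → ‖F z‖ ≤ K * (1 + ‖z‖) ^ m) :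
    BoundedAtFilter I∞ F := by
  -- Step 1: bound in terms of the imaginary part only
  have hb : ∀ z : ℂ, A ≤ z.im → 0 ≤ z.im → ‖F z‖ ≤ K * ((1 + h) + z.im) ^ m := by
    intro z hz hz0
    set n : ℤ := ⌊z.re / h⌋ with hn
    set z' : ℂ := z - n * h with hz'
    have hF : F z' = F z := hper.sub_int_mul_eq n
    have him : z'.im = z.im := by simp [hz']
    have hre : z'.re = z.re - n * h := by simp [hz']
    have h1 : (n : ℝ) ≤ z.re / h := Int.floor_le _
    have h2 : z.re / h < n + 1 := Int.lt_floor_add_one _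
    rw [le_div_iff₀ hh] at h1
    rw [div_lt_iff₀ hh] at h2
    have hre0 : 0 ≤ z'.re := by rw [hre]; linarith
    have hre1 : z'.re ≤ h := by rw [hre]; nlinarith
    have hnorm : ‖z'‖ ≤ h + z.im := by
      refine (Complex.norm_le_abs_re_add_abs_im z').trans ?_
      rw [abs_of_nonneg hre0, him, abs_of_nonneg hz0]
      linarith
    rw [← hF]
    refine (hgrow z' (him ▸ hz)).trans ?_
    have h3 : 1 + ‖z'‖ ≤ (1 + h) + z.im := by linarith
    have h4 : 0 ≤ 1 + ‖z'‖ := by positivity
    exact mul_le_mul_of_nonneg_left (pow_le_pow_left₀ h4 h3 m) hK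
  -- Step 2
  set F₁ : ℂ → ℂ := fun z => F z * 𝕢 h z with hF₁
  have hper₁ : Periodic F₁ (h : ℂ) := hper.mul (qParam_periodic_aux hh.ne')
  have hhol₁ : ∀ᶠ z in I∞, DifferentiableAt ℂ F₁ z := by
    filter_upwards [hhol] with z hz
    exact hz.mul (Periodic.differentiable_qParam z)
  have hzero : ZeroAtFilter I∞ F₁ := by
    have hφ := tendsto_poly_mul_exp_aux K (1 + h) (2 * Real.pi / h) (by positivity) m
    have htc : Tendsto im I∞ atTop := tendsto_comap
    have hφ' := hφ.comp htc
    refine squeeze_zero_norm' ?_ hφ'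
    have hev : ∀ᶠ z in I∞, max A 0 ≤ im z :=
      htc.eventually (eventually_ge_atTop (max A 0))
    filter_upwards [hev] with z hz
    simp only [hF₁, Function.comp_apply, norm_mul, Periodic.norm_qParam]
    rw [show -2 * Real.pi * z.im / h = -(2 * Real.pi / h * z.im) by ring]
    gcongr
    exact hb z ((le_max_left _ _).trans hz) ((le_max_right _ _).trans hz)
  have hdecay := Periodic.exp_decay_of_zero_at_inf hh hper₁ hhol₁ hzero
  -- Step 3
  rw [BoundedAtFilter]
  obtain ⟨C, hC⟩ := hdecay.bound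
  refine IsBigO.of_bound C ?_
  filter_upwards [hC] with z hz
  simp only [hF₁, norm_mul, Periodic.norm_qParam, Real.norm_eq_abs, Real.abs_exp] at hz
  have hpos : 0 < Real.exp (-2 * Real.pi * z.im / h) := Real.exp_pos _
  simpa using le_of_mul_le_mul_right hz hpos

end Fermat.Agent.S22Aux
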