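import Mathlib

set_option autoImplicit false

namespace Fermat.Agent.S22Aux

open UpperHalfPlane Finset

/-- A primitive of `φ(τ) * c * (-τ)^j` with `φ` bounded for `im τ ≥ A` has polynomial growth. -/
theorem coeff_growth_aux {φ : ℍ → ℂ} {C A : ℝ} (hA : 1 ≤ A) (hC : 0 ≤ C)
    (hφ : ∀ τ : ℍ, A ≤ τ.im → ‖φ τ‖ ≤ C) (c : ℂ) (j : ℕ) {B : ℍ → ℂ}
    (hB : ∀ τ : ℍ, HasDerivAt (fun z : ℂ => B (ofComplex z)) (φ τ * c * (-(τ : ℂ)) ^ j) τ) :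
    ∃ K : ℝ, 0 ≤ K ∧ ∀ z : ℂ, A ≤ z.im → ‖B (ofComplex z)‖ ≤ K * (1 + ‖z‖) ^ (j + 1) := by
  have hA0 : 0 < A := lt_of_lt_of_le one_pos hA
  set z₀ : ℂ := A * Complex.I with hz₀
  have hz₀im : z₀.im = A := by simp [hz₀]
  have hz₀norm : ‖z₀‖ = A := by simp [hz₀, abs_of_pos hA0]
  refine ⟨‖B (ofComplex z₀)‖ + C * ‖c‖ * A ^ (j + 1), by positivity, fun z hz => ?_⟩
  set R : ℝ := ‖z‖ + A with hR
  have hR0 : 0 ≤ R := by positivity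
  set s : Set ℂ := {u : ℂ | A ≤ u.im} ∩ Metric.closedBall 0 R with hs
  have hconv : Convex ℝ s := (convex_halfSpace_im_ge A).inter (convex_closedBall 0 R)
  have hzs : z ∈ s := ⟨hz, by simp [hR, hA0.le]⟩
  have hz₀s : z₀ ∈ s := ⟨hz₀im.ge, by simp [hR, hz₀norm]⟩
  have hderiv : ∀ u ∈ s, HasDerivWithinAt (fun z : ℂ => B (ofComplex z))
      ((φ ∘ ofComplex) u * c * (-u) ^ j) s u := by
    intro u hu
    have hu0 : 0 < u.im := lt_of_lt_of_le hA0 hu.1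
    have := hB ⟨u, hu0⟩
    simp only [Function.comp_apply, ofComplex_apply_of_im_pos hu0]
    exact this.hasDerivWithinAt
  have hbound : ∀ u ∈ s, ‖(φ ∘ ofComplex) u * c * (-u) ^ j‖ ≤ C * ‖c‖ * R ^ j := by
    intro u hu
    have hu0 : 0 < u.im := lt_of_lt_of_le hA0 hu.1
    have h1 : ‖(φ ∘ ofComplex) u‖ ≤ C := by
      simp only [Function.comp_apply, ofComplex_apply_of_im_pos hu0]
      exact hφ ⟨u, hu0⟩ hu.1
    have h2 : ‖u‖ ≤ R := by simpa using hu.2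
    rw [norm_mul, norm_mul, norm_pow, norm_neg]
    gcongr
  have hmv := Convex.norm_image_sub_le_of_norm_hasDerivWithin_le hderiv hbound hconv hz₀s hzs
  have h3 : ‖z - z₀‖ ≤ R := by
    refine (norm_sub_le _ _).trans ?_
    rw [hz₀norm]
  have ht : 1 ≤ 1 + ‖z‖ := by linarith [norm_nonneg z]
  have hRt : R ≤ A * (1 + ‖z‖) := by
    rw [hR]; nlinarith [norm_nonneg z]
  have h4 : ‖B (ofComplex z)‖ ≤ ‖B (ofComplex z₀)‖ + C * ‖c‖ * R ^ j * R := by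
    have h5 : ‖B (ofComplex z)‖ ≤ ‖B (ofComplex z₀)‖ + ‖B (ofComplex z) - B (ofComplex z₀)‖ := by
      have := norm_add_le (B (ofComplex z₀)) (B (ofComplex z) - B (ofComplex z₀))
      simpa using this
    refine h5.trans ?_
    gcongr
    exact hmv.trans (by gcongr)
  refine h4.trans ?_
  have h6 : R ^ j * R ≤ A ^ (j + 1) * (1 + ‖z‖) ^ (j + 1) := by
    rw [← pow_succ, ← mul_pow]
    exact pow_le_pow_left₀ hR0 hRt _
  have h7 : (1 : ℝ) ≤ (1 + ‖z‖) ^ (j + 1) := one_le_pow₀ ht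
  have h8 : 0 ≤ C * ‖c‖ := by positivity
  calc ‖B (ofComplex z₀)‖ + C * ‖c‖ * R ^ j * R
      = ‖B (ofComplex z₀)‖ * 1 + C * ‖c‖ * (R ^ j * R) := by ring
    _ ≤ ‖B (ofComplex z₀)‖ * (1 + ‖z‖) ^ (j + 1) +
        C * ‖c‖ * (A ^ (j + 1) * (1 + ‖z‖) ^ (j + 1)) := by gcongr
    _ = (‖B (ofComplex z₀)‖ + C * ‖c‖ * A ^ (j + 1)) * (1 + ‖z‖) ^ (j + 1) := by ring

/-- Polynomial growth of `∑ B_n(z) z^n`. -/
theorem sum_growth_aux {φ : ℍ → ℂ} (hφ : IsBoundedAtImInfty φ) (w : ℕ) {B : ℕ → ℍ → ℂ}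
    (hB : ∀ n (τ : ℍ), HasDerivAt (fun z : ℂ => B n (ofComplex z))
      (φ τ * (w.choose n) * (-(τ : ℂ)) ^ (w - n)) τ) :
    ∃ K A : ℝ, 0 ≤ K ∧ ∀ z : ℂ, A ≤ z.im →
      ‖∑ n ∈ range (w + 1), B n (ofComplex z) * z ^ n‖ ≤ K * (1 + ‖z‖) ^ (w + 1) := by
  obtain ⟨C₀, A₀, h₀⟩ := isBoundedAtImInfty_iff.mp hφ
  set A : ℝ := max A₀ 1 with hA
  set C : ℝ := max C₀ 0 with hC
  have hφ' : ∀ τ : ℍ, A ≤ τ.im → ‖φ τ‖ ≤ C := fun τ hτ =>
    (h₀ τ ((le_max_left _ _).trans hτ)).trans (le_max_left _ _)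
  choose K hK0 hK using fun n : ℕ =>
    coeff_growth_aux (le_max_right A₀ 1) (le_max_right C₀ 0) hφ' (w.choose n : ℂ) (w - n) (hB n)
  refine ⟨∑ n ∈ range (w + 1), K n, A, Finset.sum_nonneg fun n _ => hK0 n, fun z hz => ?_⟩
  refine (norm_sum_le _ _).trans ?_
  rw [Finset.sum_mul]
  refine Finset.sum_le_sum fun n hn => ?_
  have hn' : n ≤ w := Nat.lt_succ_iff.mp (mem_range.mp hn)
  have ht : 1 ≤ 1 + ‖z‖ := by linarith [norm_nonneg z]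
  rw [norm_mul, norm_pow]
  calc ‖B n (ofComplex z)‖ * ‖z‖ ^ n ≤ (K n * (1 + ‖z‖) ^ (w - n + 1)) * (1 + ‖z‖) ^ n := by
        have h1 : ‖z‖ ^ n ≤ (1 + ‖z‖) ^ n :=
          pow_le_pow_left₀ (norm_nonneg z) (by linarith) n
        exact mul_le_mul (hK n z hz) h1 (by positivity)
          (mul_nonneg (hK0 n) (by positivity))
    _ = K n * (1 + ‖z‖) ^ (w + 1) := by
        rw [mul_assoc, ← pow_add]
        congr 2
        omega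

end Fermat.Agent.S22Aux
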