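import Mathlib

set_option autoImplicit false

namespace Fermat.Agent.S22Aux

open Finset

/-- The monomial function `x^n y^(w-n)`. -/
def monoFn (w n : ℕ) : (Fin 2 → ℂ) → ℂ := fun v => v 0 ^ n * v 1 ^ (w - n)

/-- Homogeneous polynomial functions of degree `w` in two variables. -/
def homPoly (w : ℕ) : Submodule ℂ ((Fin 2 → ℂ) → ℂ) :=
  Submodule.span ℂ (Set.range fun n : Fin (w + 1) => monoFn w n)

theorem monoFn_mem_homPoly {w n : ℕ} (h : n ≤ w) : monoFn w n ∈ homPoly w :=
  Submodule.subset_span ⟨⟨n, Nat.lt_succ_of_le h⟩, rfl⟩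

theorem mem_homPoly_iff {w : ℕ} {φ : (Fin 2 → ℂ) → ℂ} :
    φ ∈ homPoly w ↔ ∃ c : ℕ → ℂ, ∀ v, φ v = ∑ n ∈ range (w + 1), c n * (v 0 ^ n * v 1 ^ (w - n)) := by
  constructor
  · intro h
    obtain ⟨c, hc⟩ := (Submodule.mem_span_range_iff_exists_fun ℂ).mp h
    refine ⟨fun n => if h : n < w + 1 then c ⟨n, h⟩ else 0, fun v => ?_⟩
    rw [← hc, Finset.sum_apply, Finset.sum_range]
    refine Finset.sum_congr rfl fun i _ => ?_
    beta_reduce
    rw [dif_pos i.2]
    rfl
  · rintro ⟨c, hc⟩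
    have : φ = ∑ n ∈ range (w + 1), c n • monoFn w n := by
      funext v
      rw [hc, Finset.sum_apply]
      rfl
    rw [this]
    exact Submodule.sum_mem _ fun n hn =>
      Submodule.smul_mem _ _ (monoFn_mem_homPoly (Nat.lt_succ_iff.mp (mem_range.mp hn)))

theorem homPoly_mul {a b : ℕ} {φ ψ : (Fin 2 → ℂ) → ℂ} (hφ : φ ∈ homPoly a) (hψ : ψ ∈ homPoly b) :
    φ * ψ ∈ homPoly (a + b) := by
  induction hφ using Submodule.span_induction with
  | mem x hx =>
    obtain ⟨n, rfl⟩ := hx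
    induction hψ using Submodule.span_induction with
    | mem y hy =>
      obtain ⟨m, rfl⟩ := hy
      have hn : (n : ℕ) ≤ a := Nat.lt_succ_iff.mp n.2
      have hm : (m : ℕ) ≤ b := Nat.lt_succ_iff.mp m.2
      have : monoFn a n * monoFn b m = monoFn (a + b) (n + m) := by
        funext v
        simp only [monoFn, Pi.mul_apply]
        rw [show a + b - (n + m) = (a - n) + (b - m) by omega, pow_add, pow_add]
        ring
      simp only [this]
      exact monoFn_mem_homPoly (by omega)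
    | zero => simp
    | add y z _ _ hy hz => rw [mul_add]; exact Submodule.add_mem _ hy hz
    | smul r y _ hy => rw [mul_smul_comm]; exact Submodule.smul_mem _ _ hy
  | zero => simp
  | add y z _ _ hy hz => rw [add_mul]; exact Submodule.add_mem _ hy hz
  | smul r y _ hy => rw [smul_mul_assoc]; exact Submodule.smul_mem _ _ hy

theorem one_mem_homPoly_zero : (1 : (Fin 2 → ℂ) → ℂ) ∈ homPoly 0 := by
  have : (1 : (Fin 2 → ℂ) → ℂ) = monoFn 0 0 := by
    funext v; simp [monoFn]
  rw [this]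
  exact monoFn_mem_homPoly le_rfl

theorem linear_mem_homPoly_one (α β : ℂ) : (fun v : Fin 2 → ℂ => α * v 0 + β * v 1) ∈ homPoly 1 := by
  have : (fun v : Fin 2 → ℂ => α * v 0 + β * v 1) = α • monoFn 1 1 + β • monoFn 1 0 := by
    funext v; simp [monoFn]
  rw [this]
  exact Submodule.add_mem _ (Submodule.smul_mem _ _ (monoFn_mem_homPoly le_rfl))
    (Submodule.smul_mem _ _ (monoFn_mem_homPoly (Nat.zero_le _)))

theorem homPoly_pow {φ : (Fin 2 → ℂ) → ℂ} (hφ : φ ∈ homPoly 1) (n : ℕ) :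
    φ ^ n ∈ homPoly n := by
  induction n with
  | zero => simpa using one_mem_homPoly_zero
  | succ n ih => rw [pow_succ]; exact homPoly_mul ih hφ

theorem linear_pow_mem_homPoly (α β : ℂ) (w : ℕ) :
    (fun v : Fin 2 → ℂ => (α * v 0 + β * v 1) ^ w) ∈ homPoly w :=
  homPoly_pow (linear_mem_homPoly_one α β) w

/-- `homPoly w` is stable under linear substitutions. -/
theorem homPoly_comp_mulVec {w : ℕ} {φ : (Fin 2 → ℂ) → ℂ} (hφ : φ ∈ homPoly w)
    (A : Matrix (Fin 2) (Fin 2) ℂ) : (fun v => φ (A.mulVec v)) ∈ homPoly w := by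
  induction hφ using Submodule.span_induction with
  | mem x hx =>
    obtain ⟨n, rfl⟩ := hx
    have hn : (n : ℕ) ≤ w := Nat.lt_succ_iff.mp n.2
    have h1 := linear_pow_mem_homPoly (A 0 0) (A 0 1) n
    have h2 := linear_pow_mem_homPoly (A 1 0) (A 1 1) (w - n)
    have h3 := homPoly_mul h1 h2
    rw [show (n : ℕ) + (w - n) = w by omega] at h3
    convert h3 using 1
    funext v
    simp [monoFn, Matrix.mulVec, dotProduct, Fin.sum_univ_two]
  | zero => exact Submodule.zero_mem _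
  | add y z _ _ hy hz => exact Submodule.add_mem _ hy hz
  | smul r y _ hy => exact Submodule.smul_mem _ r hy

theorem homPoly_smul_apply {w : ℕ} {φ : (Fin 2 → ℂ) → ℂ} (hφ : φ ∈ homPoly w) (c : ℂ)
    (v : Fin 2 → ℂ) : φ (c • v) = c ^ w * φ v := by
  obtain ⟨a, ha⟩ := mem_homPoly_iff.mp hφ
  rw [ha, ha, Finset.mul_sum]
  refine Finset.sum_congr rfl fun n hn => ?_
  have hn' : n ≤ w := Nat.lt_succ_iff.mp (mem_range.mp hn)
  simp only [Pi.smul_apply, smul_eq_mul, mul_pow]
  rw [show c ^ w = c ^ n * c ^ (w - n) by rw [← pow_add]; congr 1; omega]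
  ring

/-- An element of `homPoly w` vanishing at the `w+1` points `(t,1)`, `t = 0..w`, is zero. -/
theorem homPoly_eq_zero_of_vanish {w : ℕ} {φ : (Fin 2 → ℂ) → ℂ} (hφ : φ ∈ homPoly w)
    (h : ∀ t : Fin (w + 1), φ ![((t : ℕ) : ℂ), 1] = 0) : φ = 0 := by
  obtain ⟨a, ha⟩ := mem_homPoly_iff.mp hφ
  let p : Polynomial ℂ := ∑ n ∈ range (w + 1), Polynomial.C (a n) * Polynomial.X ^ n
  have hdeg : p.natDegree < w + 1 := by
    refine lt_of_le_of_lt (Polynomial.natDegree_sum_le_of_forall_le _ _ (n := w) fun n hn => ?_)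
      (Nat.lt_succ_self w)
    exact (Polynomial.natDegree_C_mul_X_pow_le _ _).trans (Nat.lt_succ_iff.mp (mem_range.mp hn))
  have heval : ∀ x : ℂ, p.eval x = φ ![x, 1] := by
    intro x
    rw [ha]
    simp [p, Polynomial.eval_finsetSum]
  have hp : p = 0 := by
    refine Polynomial.eq_zero_of_natDegree_lt_card_of_eval_eq_zero p
      (f := fun t : Fin (w + 1) => ((t : ℕ) : ℂ)) ?_ ?_ ?_
    · intro s t hst
      have hst' : (((s : ℕ) : ℂ)) = ((t : ℕ) : ℂ) := hst
      exact Fin.ext (by exact_mod_cast hst')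
    · intro t
      rw [heval]; exact h t
    · simpa using hdeg
  have hcoeff : ∀ n ∈ range (w + 1), a n = 0 := by
    intro n hn
    have : p.coeff n = a n := by
      simp only [p, Polynomial.finsetSum_coeff, Polynomial.coeff_C_mul, Polynomial.coeff_X_pow]
      rw [Finset.sum_eq_single n]
      · simp
      · intro b _ hb; simp [hb.symm]
      · intro h; exact absurd hn h
    rw [← this, hp, Polynomial.coeff_zero]
  funext v
  rw [ha]
  exact Finset.sum_eq_zero fun n hn => by rw [hcoeff n hn, zero_mul]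

end Fermat.Agent.S22Aux
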