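import Mathlib

set_option autoImplicit false

namespace Fermat.Agent.S22Aux

open Complex

theorem mem_ball_mul_I_iff {r : ℝ} (hr : 0 < r) (z : ℂ) :
    z ∈ Metric.ball ((r : ℂ) * I) r ↔ z.re ^ 2 + z.im ^ 2 < 2 * r * z.im := by
  rw [Metric.mem_ball, dist_eq_norm, ← sq_lt_sq₀ (norm_nonneg _) hr.le, Complex.sq_norm,
    Complex.normSq_apply]
  simp only [sub_re, mul_re, ofReal_re, I_re, mul_zero, ofReal_im, I_im, mul_one, sub_self,
    sub_zero, sub_im, mul_im, add_zero, zero_mul]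
  constructor <;> intro h <;> nlinarith

/-- Holomorphic functions on the upper half plane have primitives. -/
theorem exists_primitive_upperHalfPlane {F : ℂ → ℂ} (hF : DifferentiableOn ℂ F {z | 0 < z.im}) :
    ∃ P : ℂ → ℂ, ∀ z, 0 < z.im → HasDerivAt P (F z) z := by
  let B : ℕ → Set ℂ := fun n => Metric.ball (((n + 1 : ℕ) : ℝ) * I) ((n + 1 : ℕ) : ℝ)
  have hpos : ∀ n : ℕ, (0 : ℝ) < ((n + 1 : ℕ) : ℝ) := fun n => by positivity
  have hmem : ∀ n z, z ∈ B n ↔ z.re ^ 2 + z.im ^ 2 < 2 * ((n + 1 : ℕ) : ℝ) * z.im :=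
    fun n z => mem_ball_mul_I_iff (hpos n) z
  have hBsub : ∀ n, B n ⊆ {z | 0 < z.im} := by
    intro n z hz
    rw [hmem] at hz
    have h1 : 0 ≤ z.re ^ 2 + z.im ^ 2 := by positivity
    have h2 : 0 < 2 * ((n + 1 : ℕ) : ℝ) * z.im := lt_of_le_of_lt h1 hz
    have h3 : (0 : ℝ) < 2 * ((n + 1 : ℕ) : ℝ) := by have := hpos n; positivity
    exact (pos_iff_pos_of_mul_pos h2).mp h3
  have hBmono : ∀ n m, n ≤ m → B n ⊆ B m := by
    intro n m hnm z hz
    have hz0 : 0 < z.im := hBsub n hz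
    rw [hmem] at hz ⊢
    have : ((n + 1 : ℕ) : ℝ) ≤ ((m + 1 : ℕ) : ℝ) := by exact_mod_cast Nat.succ_le_succ hnm
    nlinarith
  have hI : ∀ n, I ∈ B n := by
    intro n
    rw [hmem]
    have : (1 : ℝ) ≤ ((n + 1 : ℕ) : ℝ) := by exact_mod_cast Nat.succ_le_succ (Nat.zero_le n)
    simp only [I_re, I_im]
    nlinarith
  have hcover : ∀ z : ℂ, 0 < z.im → ∃ n, z ∈ B n := by
    intro z hz
    obtain ⟨n, hn⟩ := exists_nat_gt ((z.re ^ 2 + z.im ^ 2) / (2 * z.im))
    refine ⟨n, ?_⟩
    rw [hmem]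
    rw [div_lt_iff₀ (by positivity)] at hn
    push_cast
    nlinarith
  choose P hPI hP using fun n => ((hF.mono (hBsub n)).isExactOn_ball).with_val_at I 0
  have hcompat : ∀ n m, n ≤ m → Set.EqOn (P n) (P m) (B n) := by
    intro n m hnm
    refine IsOpen.eqOn_of_deriv_eq Metric.isOpen_ball (convex_ball _ _).isPreconnected
      (fun z hz => (hP n z hz).differentiableAt.differentiableWithinAt)
      (fun z hz => (hP m z (hBmono n m hnm hz)).differentiableAt.differentiableWithinAt)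
      (fun z hz => ?_) (hI n) ?_
    · rw [(hP n z hz).deriv, (hP m z (hBmono n m hnm hz)).deriv]
    · rw [hPI, hPI]
  classical
  let idx : ℂ → ℕ := fun z => if h : 0 < z.im then (hcover z h).choose else 0
  have hidx : ∀ z, 0 < z.im → z ∈ B (idx z) := by
    intro z hz
    simp only [idx, dif_pos hz]
    exact (hcover z hz).choose_spec
  refine ⟨fun z => P (idx z) z, fun z hz => ?_⟩
  have hev : (fun z' => P (idx z') z') =ᶠ[nhds z] P (idx z) := by
    filter_upwards [Metric.isOpen_ball.mem_nhds (hidx z hz)] with z' hz'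
    have hz'0 : 0 < z'.im := hBsub _ hz'
    rcases le_total (idx z') (idx z) with h | h
    · exact hcompat _ _ h (hidx z' hz'0)
    · exact (hcompat _ _ h hz').symm
  exact (hP (idx z) z (hidx z hz)).congr_of_eventuallyEq hev

/-- A function on the upper half plane with vanishing derivative is constant. -/
theorem eq_of_hasDerivAt_zero_upperHalfPlane {P : ℂ → ℂ}
    (hP : ∀ z, 0 < z.im → HasDerivAt P 0 z) {z w : ℂ} (hz : 0 < z.im) (hw : 0 < w.im) :
    P z = P w := by
  have hconv : Convex ℝ {z : ℂ | 0 < z.im} := convex_halfSpace_im_gt 0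
  have hopen : IsOpen {z : ℂ | 0 < z.im} := isOpen_lt continuous_const Complex.continuous_im
  exact IsOpen.is_const_of_deriv_eq_zero hopen hconv.isPreconnected
    (fun z hz => (hP z hz).differentiableAt.differentiableWithinAt)
    (fun z hz => (hP z hz).deriv) hz hw

end Fermat.Agent.S22Aux
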