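import Mathlib
import Fermat.Agent.S22Aux.HomPoly
import Fermat.Agent.S22Aux.Primitive

set_option autoImplicit false

namespace Fermat.Agent.S22Aux

open UpperHalfPlane Finset
open scoped ModularForm MatrixGroups Manifold

/-- The complexification of a real matrix. -/
noncomputable def cmat (g : GL (Fin 2) ℝ) : Matrix (Fin 2) (Fin 2) ℂ :=
  (g : Matrix (Fin 2) (Fin 2) ℝ).map Complex.ofRealHom

theorem cmat_mul (g h : GL (Fin 2) ℝ) : cmat (g * h) = cmat g * cmat h := by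
  simp [cmat, Matrix.map_mul]

theorem cmat_one : cmat 1 = 1 := by
  simp [cmat]

theorem cmat_apply (g : GL (Fin 2) ℝ) (i j : Fin 2) : cmat g i j = ((g i j : ℝ) : ℂ) := rfl

/-- The action of `GL₂(ℝ)` on polynomial valued functions. -/
noncomputable def vslash (G : ℍ → (Fin 2 → ℂ) → ℂ) (g : GL (Fin 2) ℝ) : ℍ → (Fin 2 → ℂ) → ℂ :=
  fun τ v => G (g • τ) ((cmat g).mulVec v)

theorem vslash_apply (G : ℍ → (Fin 2 → ℂ) → ℂ) (g : GL (Fin 2) ℝ) (τ : ℍ) (v : Fin 2 → ℂ) :
    vslash G g τ v = G (g • τ) ((cmat g).mulVec v) := rfl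

theorem vslash_mul (G : ℍ → (Fin 2 → ℂ) → ℂ) (g h : GL (Fin 2) ℝ) :
    vslash G (g * h) = vslash (vslash G g) h := by
  funext τ v
  simp only [vslash_apply, cmat_mul, mul_smul, Matrix.mulVec_mulVec]

theorem vslash_one (G : ℍ → (Fin 2 → ℂ) → ℂ) : vslash G 1 = G := by
  funext τ v
  simp only [vslash_apply, cmat_one, one_smul, Matrix.one_mulVec]

theorem vslash_add (G H : ℍ → (Fin 2 → ℂ) → ℂ) (g : GL (Fin 2) ℝ) :
    vslash (G + H) g = vslash G g + vslash H g := rfl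

theorem vslash_sub (G H : ℍ → (Fin 2 → ℂ) → ℂ) (g : GL (Fin 2) ℝ) :
    vslash (G - H) g = vslash G g - vslash H g := rfl

theorem vslash_sum {ι : Type*} (s : Finset ι) (G : ι → ℍ → (Fin 2 → ℂ) → ℂ) (g : GL (Fin 2) ℝ) :
    vslash (∑ i ∈ s, G i) g = ∑ i ∈ s, vslash (G i) g := by
  funext τ v
  simp only [vslash_apply, Finset.sum_apply]

/-- `G` is a (polynomial valued) primitive of `f(τ) (x - τ y)^w dτ`. -/
structure IsPrim (w : ℕ) (f : ℍ → ℂ) (G : ℍ → (Fin 2 → ℂ) → ℂ) : Prop where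
  mem : ∀ τ, G τ ∈ homPoly w
  deriv : ∀ (v : Fin 2 → ℂ) (τ : ℍ),
    HasDerivAt (fun z : ℂ => G (ofComplex z) v) (f τ * (v 0 - τ * v 1) ^ w) τ

theorem slash_apply_of_det_pos (k : ℤ) (f : ℍ → ℂ) {g : GL (Fin 2) ℝ} (hg : 0 < g.det.val)
    (τ : ℍ) : (f ∣[k] g) τ = f (g • τ) * ((g.det.val : ℝ) : ℂ) ^ (k - 1) * denom g τ ^ (-k) := by
  rw [ModularForm.slash_apply, UpperHalfPlane.σ, if_pos hg, abs_of_pos hg]
  rfl

namespace IsPrim

variable {w : ℕ} {f f' : ℍ → ℂ} {G G' : ℍ → (Fin 2 → ℂ) → ℂ}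

theorem zero (w : ℕ) : IsPrim w 0 0 where
  mem _ := Submodule.zero_mem _
  deriv v τ := by simpa using hasDerivAt_const (τ : ℂ) (0 : ℂ)

theorem add (h : IsPrim w f G) (h' : IsPrim w f' G') : IsPrim w (f + f') (G + G') where
  mem τ := Submodule.add_mem _ (h.mem τ) (h'.mem τ)
  deriv v τ := by
    have := (h.deriv v τ).add (h'.deriv v τ)
    simp only [Pi.add_apply, add_mul]
    exact this

theorem neg (h : IsPrim w f G) : IsPrim w (-f) (-G) where
  mem τ := Submodule.neg_mem _ (h.mem τ)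
  deriv v τ := by
    have := (h.deriv v τ).neg
    simp only [Pi.neg_apply, neg_mul]
    exact this

theorem sub (h : IsPrim w f G) (h' : IsPrim w f' G') : IsPrim w (f - f') (G - G') := by
  rw [sub_eq_add_neg, sub_eq_add_neg]
  exact h.add h'.neg

theorem sum {ι : Type*} (s : Finset ι) {f : ι → ℍ → ℂ} {G : ι → ℍ → (Fin 2 → ℂ) → ℂ}
    (h : ∀ i ∈ s, IsPrim w (f i) (G i)) : IsPrim w (∑ i ∈ s, f i) (∑ i ∈ s, G i) := by
  classical
  induction s using Finset.induction_on with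
  | empty => simpa using zero w
  | insert a s ha ih =>
    rw [Finset.sum_insert ha, Finset.sum_insert ha]
    exact (h a (Finset.mem_insert_self a s)).add
      (ih fun i hi => h i (Finset.mem_insert_of_mem hi))

theorem slash (h : IsPrim w f G) {g : GL (Fin 2) ℝ} (hg : 0 < g.det.val) :
    IsPrim w (f ∣[(w : ℤ) + 2] g) (vslash G g) where
  mem τ := homPoly_comp_mulVec (h.mem (g • τ)) (cmat g)
  deriv v τ := by
    have hg' : 0 < (g : Matrix (Fin 2) (Fin 2) ℝ).det := hg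
    have h0 := h.deriv ((cmat g).mulVec v) (g • τ)
    have hτ : ((g • τ : ℍ) : ℂ) = ((g • ofComplex (τ : ℂ) : ℍ) : ℂ) := by rw [ofComplex_apply]
    rw [hτ] at h0
    have h1 := h0.comp (τ : ℂ) (hasStrictDerivAt_smul hg' τ).hasDerivAt
    have h2 : ((fun z : ℂ => G (ofComplex z) ((cmat g).mulVec v)) ∘
        fun z : ℂ => ((g • ofComplex z : ℍ) : ℂ)) = fun z : ℂ => vslash G g (ofComplex z) v := by
      funext z
      simp [vslash_apply]
    rw [h2, ← hτ] at h1
    refine h1.congr_deriv ?_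
    rw [slash_apply_of_det_pos _ _ hg]
    have hd : denom g τ ≠ 0 := denom_ne_zero g τ
    have hdet : ((g.det.val : ℝ) : ℂ) = (g 0 0 : ℂ) * g 1 1 - (g 0 1 : ℂ) * g 1 0 := by
      rw [Matrix.GeneralLinearGroup.val_det_apply, Matrix.det_fin_two]
      push_cast
      ring
    have hdet' : (((g : Matrix (Fin 2) (Fin 2) ℝ).det : ℝ) : ℂ) = ((g.det.val : ℝ) : ℂ) := by
      rw [Matrix.GeneralLinearGroup.val_det_apply]
    have hkey : (cmat g).mulVec v 0 - ((g • τ : ℍ) : ℂ) * (cmat g).mulVec v 1 =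
        ((g.det.val : ℝ) : ℂ) * (v 0 - τ * v 1) / denom g τ := by
      rw [coe_smul_of_det_pos hg, hdet]
      simp only [Matrix.mulVec, dotProduct, Fin.sum_univ_two, cmat_apply]
      rw [eq_div_iff hd]
      have : num g τ / denom g τ * (↑(g 1 0) * v 0 + ↑(g 1 1) * v 1) * denom g τ =
          num g τ * (↑(g 1 0) * v 0 + ↑(g 1 1) * v 1) := by
        field_simp
      rw [sub_mul, this]
      simp only [num, denom]
      ring
    rw [hkey, hdet']
    rw [show ((w : ℤ) + 2 - 1) = ((w + 1 : ℕ) : ℤ) by push_cast; ring, zpow_natCast,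
      show (-((w : ℤ) + 2)) = -((w + 2 : ℕ) : ℤ) by push_cast; ring, zpow_neg, zpow_natCast]
    rw [div_pow, mul_pow, pow_succ, pow_add]
    field_simp
    ring

/-- A primitive of `0` is constant. -/
theorem const (h : IsPrim w 0 G) (τ τ' : ℍ) : G τ = G τ' := by
  funext v
  have := eq_of_hasDerivAt_zero_upperHalfPlane (P := fun z : ℂ => G (ofComplex z) v)
    (fun z hz => by simpa using h.deriv v ⟨z, hz⟩) τ.im_pos τ'.im_pos
  simpa using this

end IsPrim

/-- Existence of primitives, with explicit holomorphic coefficients. -/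
theorem exists_isPrim (w : ℕ) (f : ℍ → ℂ) (hf : MDiff f) :
    ∃ A : ℕ → ℍ → ℂ,
      (∀ n (τ : ℍ), HasDerivAt (fun z : ℂ => A n (ofComplex z))
        (f τ * (w.choose n) * (-(τ : ℂ)) ^ (w - n)) τ) ∧
      IsPrim w f (fun τ v => ∑ n ∈ range (w + 1), A n τ * (v 0 ^ n * v 1 ^ (w - n))) := by
  have hf' : DifferentiableOn ℂ (f ∘ ofComplex) {z | 0 < z.im} := mdifferentiable_iff.mp hf
  have hex : ∀ n : ℕ, ∃ P : ℂ → ℂ, ∀ z, 0 < z.im →
      HasDerivAt P ((f ∘ ofComplex) z * (w.choose n) * (-z) ^ (w - n)) z := by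
    intro n
    apply exists_primitive_upperHalfPlane
    exact (hf'.mul (differentiableOn_const _)).mul (differentiableOn_id.neg.pow _)
  choose P hP using hex
  have hA : ∀ n (τ : ℍ), HasDerivAt (fun z : ℂ => P n ((ofComplex z : ℍ) : ℂ))
      (f τ * (w.choose n) * (-(τ : ℂ)) ^ (w - n)) τ := by
    intro n τ
    have h1 := hP n τ τ.im_pos
    simp only [Function.comp_apply, ofComplex_apply] at h1
    refine h1.congr_of_eventuallyEq ?_
    filter_upwards [eventuallyEq_coe_comp_ofComplex τ.im_pos] with z hz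
    simp only [Function.comp_apply, id_eq] at hz
    rw [hz]
  refine ⟨fun n τ => P n τ, hA, ?_, ?_⟩
  · intro τ
    exact mem_homPoly_iff.mpr ⟨fun n => P n τ, fun v => rfl⟩
  · intro v τ
    have h1 : HasDerivAt (fun z : ℂ => ∑ n ∈ range (w + 1),
        P n ((ofComplex z : ℍ) : ℂ) * (v 0 ^ n * v 1 ^ (w - n)))
        (∑ n ∈ range (w + 1), (f τ * (w.choose n) * (-(τ : ℂ)) ^ (w - n)) *
          (v 0 ^ n * v 1 ^ (w - n))) τ :=
      HasDerivAt.fun_sum fun n _ => (hA n τ).mul_const _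
    refine h1.congr_deriv ?_
    rw [sub_eq_add_neg, add_pow, Finset.mul_sum]
    refine Finset.sum_congr rfl fun n _ => ?_
    rw [show -((τ : ℂ) * v 1) = (-(τ : ℂ)) * v 1 by ring, mul_pow]
    ring

/-- Every primitive has holomorphic coefficients. -/
theorem IsPrim.exists_coeff {w : ℕ} {f : ℍ → ℂ} {G : ℍ → (Fin 2 → ℂ) → ℂ} (hf : MDiff f)
    (h : IsPrim w f G) :
    ∃ A : ℕ → ℍ → ℂ,
      (∀ n (τ : ℍ), HasDerivAt (fun z : ℂ => A n (ofComplex z))
        (f τ * (w.choose n) * (-(τ : ℂ)) ^ (w - n)) τ) ∧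
      ∀ τ v, G τ v = ∑ n ∈ range (w + 1), A n τ * (v 0 ^ n * v 1 ^ (w - n)) := by
  obtain ⟨A, hA, hG0⟩ := exists_isPrim w f hf
  have hD := h.sub hG0
  rw [sub_self] at hD
  obtain ⟨c, hc⟩ := mem_homPoly_iff.mp (hD.mem I)
  refine ⟨fun n τ => A n τ + c n, fun n τ => ?_, fun τ v => ?_⟩
  · exact (hA n τ).add_const (c n)
  · have h1 := congrFun (hD.const τ I) v
    rw [hc] at h1
    simp only [Pi.sub_apply] at h1
    rw [sub_eq_iff_eq_add] at h1
    rw [h1, ← Finset.sum_add_distrib]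
    refine Finset.sum_congr rfl fun n _ => ?_
    ring

end Fermat.Agent.S22Aux
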