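import Mathlib
import Fermat.Prelude.Thm_Subgroup_IsArithmetic_exists_nat_mem_strictPeriods_conj
import Fermat.Agent.S22Aux.Prim
import Fermat.Agent.S22Aux.Growth
import Fermat.Agent.S22Aux.PolyGrowth
import Fermat.Agent.S22Aux.DiagConst

set_option autoImplicit false

namespace Fermat.Agent.S22Aux

open UpperHalfPlane Finset Matrix.SpecialLinearGroup CongruenceSubgroup
open scoped ModularForm MatrixGroups Manifold

/-- The diagonal restriction `τ ↦ G(τ)(τ,1)`. -/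
noncomputable def diagFn (G : ℍ → (Fin 2 → ℂ) → ℂ) : ℍ → ℂ := fun τ => G τ ![(τ : ℂ), 1]

theorem det_mapGL_pos (σ : SL(2, ℤ)) : 0 < (mapGL ℝ σ : GL (Fin 2) ℝ).det.val := by
  simp

theorem cmat_mulVec_diag {g : GL (Fin 2) ℝ} (hg : 0 < g.det.val) (τ : ℍ) :
    (cmat g).mulVec ![(τ : ℂ), 1] = denom g τ • ![((g • τ : ℍ) : ℂ), 1] := by
  have hd : denom g τ ≠ 0 := denom_ne_zero g τ
  rw [coe_smul_of_det_pos hg]
  funext i
  fin_cases i
  · have : denom g τ * (num g τ / denom g τ) = num g τ := by field_simp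
    simp only [Matrix.mulVec, dotProduct, Fin.sum_univ_two, cmat_apply]
    simp only [Fin.zero_eta, Fin.isValue, Matrix.cons_val_zero, Matrix.cons_val_one, mul_one,
      Pi.smul_apply, smul_eq_mul, this]
    rfl
  · simp only [Matrix.mulVec, dotProduct, Fin.sum_univ_two, cmat_apply]
    simp only [Fin.mk_one, Fin.isValue, Matrix.cons_val_zero, Matrix.cons_val_one, mul_one,
      Pi.smul_apply, smul_eq_mul]
    rfl

theorem diagFn_slash {w : ℕ} {G : ℍ → (Fin 2 → ℂ) → ℂ} (hG : ∀ τ, G τ ∈ homPoly w)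
    (σ : SL(2, ℤ)) (k : ℤ) (hk : k = -(w : ℤ)) :
    diagFn G ∣[k] (mapGL ℝ σ : GL (Fin 2) ℝ) = diagFn (vslash G (mapGL ℝ σ)) := by
  funext τ
  subst hk
  rw [slash_apply_of_det_pos _ _ (det_mapGL_pos σ)]
  have hdet : (((mapGL ℝ σ : GL (Fin 2) ℝ).det.val : ℝ) : ℂ) = 1 := by simp
  rw [hdet, one_zpow, mul_one, neg_neg, zpow_natCast]
  simp only [diagFn, vslash_apply]
  rw [cmat_mulVec_diag (det_mapGL_pos σ), homPoly_smul_apply (hG _)]
  ring

theorem diagFn_eq_sum {w : ℕ} {G : ℍ → (Fin 2 → ℂ) → ℂ} {A : ℕ → ℍ → ℂ}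
    (hGA : ∀ τ v, G τ v = ∑ n ∈ range (w + 1), A n τ * (v 0 ^ n * v 1 ^ (w - n))) (τ : ℍ) :
    diagFn G τ = ∑ n ∈ range (w + 1), A n τ * (τ : ℂ) ^ n := by
  simp [diagFn, hGA]

theorem diagFn_comp_ofComplex_eq {w : ℕ} {G : ℍ → (Fin 2 → ℂ) → ℂ} {A : ℕ → ℍ → ℂ}
    (hGA : ∀ τ v, G τ v = ∑ n ∈ range (w + 1), A n τ * (v 0 ^ n * v 1 ^ (w - n))) {z : ℂ}
    (hz : 0 < z.im) :
    (diagFn G ∘ ofComplex) z = ∑ n ∈ range (w + 1), A n (ofComplex z) * z ^ n := by
  rw [Function.comp_apply, diagFn_eq_sum hGA, ofComplex_apply_of_im_pos hz]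

theorem mdiff_diagFn {w : ℕ} {f : ℍ → ℂ} {G : ℍ → (Fin 2 → ℂ) → ℂ} (hf : MDiff f)
    (hG : IsPrim w f G) : MDiff (diagFn G) := by
  obtain ⟨A, hA, hGA⟩ := hG.exists_coeff hf
  rw [mdifferentiable_iff]
  have h1 : DifferentiableOn ℂ (fun z : ℂ => ∑ n ∈ range (w + 1), A n (ofComplex z) * z ^ n)
      {z | 0 < z.im} := by
    intro z hz
    refine DifferentiableAt.differentiableWithinAt ?_
    refine DifferentiableAt.fun_sum fun n _ => ?_
    exact ((hA n ⟨z, hz⟩).differentiableAt).mul (differentiableAt_id.pow n)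
  exact h1.congr fun z hz => diagFn_comp_ofComplex_eq hGA hz

theorem bdd_diagFn {w : ℕ} {φ : ℍ → ℂ} {H : ℍ → (Fin 2 → ℂ) → ℂ} (hφ : MDiff φ)
    (hφb : IsBoundedAtImInfty φ) (hH : IsPrim w φ H) {h : ℝ} (hh : 0 < h)
    (hper : Function.Periodic (diagFn H ∘ ofComplex) (h : ℂ)) : IsBoundedAtImInfty (diagFn H) := by
  obtain ⟨B, hB, hHB⟩ := hH.exists_coeff hφ
  obtain ⟨K, A, hK, hgrow⟩ := sum_growth_aux hφb w hB
  have hhol : ∀ᶠ z in Filter.comap Complex.im Filter.atTop,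
      DifferentiableAt ℂ (diagFn H ∘ ofComplex) z := by
    have htc : Filter.Tendsto Complex.im (Filter.comap Complex.im Filter.atTop) Filter.atTop :=
      Filter.tendsto_comap
    filter_upwards [htc.eventually (Filter.eventually_gt_atTop 0)] with z hz
    exact mdifferentiableAt_iff.mp ((mdiff_diagFn hφ hH) ⟨z, hz⟩)
  have hb := bounded_of_periodic_of_poly_growth (A := max A 1) hh hper hhol hK (fun z hz => by
    have hz0 : 0 < z.im := lt_of_lt_of_le one_pos ((le_max_right _ _).trans hz)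
    rw [diagFn_comp_ofComplex_eq hHB hz0]
    exact hgrow z ((le_max_left _ _).trans hz))
  have h2 := hb.comp_tendsto tendsto_coe_atImInfty
  have h3 : ((diagFn H ∘ ofComplex) ∘ UpperHalfPlane.coe) = diagFn H := by
    funext τ
    simp
  rw [h3] at h2
  exact h2

/-- The diagonal restriction of an invariant primitive is a modular form of weight `-w`. -/
theorem exists_modularForm_diagFn {N : ℕ} [NeZero N] {w : ℕ}
    (f : CuspForm (Gamma0 N) ((w : ℤ) + 2)) {G : ℍ → (Fin 2 → ℂ) → ℂ} (hG : IsPrim w f G)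
    (hinv : ∀ γ ∈ Gamma0 N, vslash G (mapGL ℝ γ) = G) (k : ℤ) (hk : k = -(w : ℤ)) :
    ∃ g : ModularForm (Gamma0 N) k, ⇑g = diagFn G := by
  have hf : MDiff f := CuspFormClass.holo f
  let gS : SlashInvariantForm (Gamma0 N : Subgroup (GL (Fin 2) ℝ)) k :=
    { toFun := diagFn G
      slash_action_eq' := by
        rintro _ ⟨γ, hγ, rfl⟩
        rw [diagFn_slash hG.mem γ _ hk, hinv γ hγ] }
  obtain ⟨M, hM0, hM⟩ := Subgroup.IsArithmetic.exists_nat_mem_strictPeriods_conj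
    (Gamma0 N : Subgroup (GL (Fin 2) ℝ))
  have hbdd : ∀ σ : SL(2, ℤ),
      IsBoundedAtImInfty (diagFn G ∣[k] (mapGL ℝ σ : GL (Fin 2) ℝ)) := by
    intro σ
    have hper := SlashInvariantFormClass.periodic_comp_ofComplex
      (SlashInvariantForm.translate gS (mapGL ℝ σ)) (h := (M : ℝ))
      (by simpa using hM σ⁻¹)
    rw [SlashInvariantForm.coe_translate] at hper
    have hgS : ⇑gS = diagFn G := rfl
    rw [hgS, diagFn_slash hG.mem σ _ hk] at hper
    rw [diagFn_slash hG.mem σ _ hk]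
    have hH := hG.slash (det_mapGL_pos σ)
    refine bdd_diagFn (hf.slash _ _) ?_ hH (h := (M : ℝ)) (by exact_mod_cast hM0) hper
    exact ModularFormClass.bdd_at_infty_slash f σ
  refine ⟨{ gS with
    holo' := mdiff_diagFn hf hG
    bdd_at_cusps' := fun {c} hc => ?_ }, rfl⟩
  rw [Subgroup.IsArithmetic.isCusp_iff_isCusp_SL2Z] at hc
  rw [OnePoint.isBoundedAt_iff_forall_SL2Z hc]
  intro σ _
  exact hbdd σ

/-- **Injectivity of the Eichler-Shimura map** (holomorphic part). -/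
theorem eq_zero_of_invariant_prim {N : ℕ} [NeZero N] {w : ℕ}
    (f : CuspForm (Gamma0 N) ((w : ℤ) + 2)) {G : ℍ → (Fin 2 → ℂ) → ℂ} (hG : IsPrim w f G)
    (hinv : ∀ γ ∈ Gamma0 N, vslash G (mapGL ℝ γ) = G) : f = 0 := by
  have hf : MDiff f := CuspFormClass.holo f
  obtain ⟨A, hA, hGA⟩ := hG.exists_coeff hf
  have hconst : ∃ c, ∀ τ : ℍ, diagFn G τ = c := by
    rcases Nat.eq_zero_or_pos w with hw | hw
    · obtain ⟨g, hg⟩ := exists_modularForm_diagFn f hG hinv 0 (by simp [hw])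
      obtain ⟨c, hc⟩ := ModularForm.eq_const_of_weight_zero g
      exact ⟨c, fun τ => by rw [← hg, hc]; rfl⟩
    · obtain ⟨g, hg⟩ := exists_modularForm_diagFn f hG hinv (-(w : ℤ)) rfl
      have := ModularForm.isZero_of_neg_weight (by simpa using hw) g
      exact ⟨0, fun τ => by rw [← hg, this]; rfl⟩
  obtain ⟨c, hc⟩ := hconst
  have h0 := eq_zero_of_diag_const w f A hA ⟨c, fun τ => by rw [← diagFn_eq_sum hGA, hc]⟩
  exact DFunLike.coe_injective h0

end Fermat.Agent.S22Aux
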