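import Mathlib
import Fermat.Agent.S22Aux.Injectivity

set_option autoImplicit false

namespace Fermat.Agent.S22Aux

open UpperHalfPlane Finset Matrix.SpecialLinearGroup CongruenceSubgroup
open scoped ModularForm MatrixGroups Manifold

/-- Vectors with integer entries. -/
def IsIntVec (v : Fin 2 → ℂ) : Prop := ∀ i, ∃ n : ℤ, v i = n

/-- Matrices with integer entries. -/
def IsIntMat (g : GL (Fin 2) ℝ) : Prop := ∀ i j, ∃ n : ℤ, (g i j : ℝ) = n

theorem IsIntMat.mulVec {g : GL (Fin 2) ℝ} (hg : IsIntMat g) {v : Fin 2 → ℂ} (hv : IsIntVec v) :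
    IsIntVec ((cmat g).mulVec v) := by
  intro i
  obtain ⟨a, ha⟩ := hg i 0
  obtain ⟨b, hb⟩ := hg i 1
  obtain ⟨x, hx⟩ := hv 0
  obtain ⟨y, hy⟩ := hv 1
  refine ⟨a * x + b * y, ?_⟩
  simp only [Matrix.mulVec, dotProduct, Fin.sum_univ_two, cmat_apply, ha, hb, hx, hy]
  push_cast
  ring

theorem isIntMat_mapGL (γ : SL(2, ℤ)) : IsIntMat (mapGL ℝ γ) := by
  intro i j
  exact ⟨γ i j, by simp⟩

/-- All `Γ₀(N)`-periods of `G`, evaluated at integer vectors, lie in `M`. -/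
def PerIn (N : ℕ) (M : Submodule ℤ ℂ) (G : ℍ → (Fin 2 → ℂ) → ℂ) : Prop :=
  ∀ γ ∈ Gamma0 N, ∀ τ v, IsIntVec v → vslash G (mapGL ℝ γ) τ v - G τ v ∈ M

/-- `f` has a primitive with periods in `M`. -/
def InL (N w : ℕ) (M : Submodule ℤ ℂ) (f : ℍ → ℂ) : Prop :=
  ∃ G, IsPrim w f G ∧ PerIn N M G

theorem InL.mono {N w : ℕ} {M M' : Submodule ℤ ℂ} (h : M ≤ M') {f : ℍ → ℂ} (hf : InL N w M f) :
    InL N w M' f := by
  obtain ⟨G, hG, hper⟩ := hf
  exact ⟨G, hG, fun γ hγ τ v hv => h (hper γ hγ τ v hv)⟩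

theorem InL.zero (N w : ℕ) (M : Submodule ℤ ℂ) : InL N w M 0 :=
  ⟨0, IsPrim.zero w, fun γ _ τ v _ => by simp [vslash_apply]⟩

theorem InL.add {N w : ℕ} {M : Submodule ℤ ℂ} {f f' : ℍ → ℂ} (hf : InL N w M f)
    (hf' : InL N w M f') : InL N w M (f + f') := by
  obtain ⟨G, hG, hper⟩ := hf
  obtain ⟨G', hG', hper'⟩ := hf'
  refine ⟨G + G', hG.add hG', fun γ hγ τ v hv => ?_⟩
  have := M.add_mem (hper γ hγ τ v hv) (hper' γ hγ τ v hv)
  simp only [vslash_apply, Pi.add_apply] at this ⊢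
  convert this using 1
  ring

theorem InL.neg {N w : ℕ} {M : Submodule ℤ ℂ} {f : ℍ → ℂ} (hf : InL N w M f) :
    InL N w M (-f) := by
  obtain ⟨G, hG, hper⟩ := hf
  refine ⟨-G, hG.neg, fun γ hγ τ v hv => ?_⟩
  have := M.neg_mem (hper γ hγ τ v hv)
  simp only [vslash_apply, Pi.neg_apply] at this ⊢
  convert this using 1
  ring

/-- Abstract Hecke stability. -/
theorem InL.hecke {N w : ℕ} {M : Submodule ℤ ℂ} {f : ℍ → ℂ} {ι : Type*} [Fintype ι]
    (α : ι → GL (Fin 2) ℝ) (hdet : ∀ i, 0 < (α i).det.val) (hint : ∀ i, IsIntMat (α i))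
    (hperm : ∀ γ ∈ Gamma0 N, ∃ π : Equiv.Perm ι, ∀ i, ∃ γ' ∈ Gamma0 N,
      α i * mapGL ℝ γ = mapGL ℝ γ' * α (π i))
    (hf : InL N w M f) : InL N w M (∑ i, f ∣[(w : ℤ) + 2] α i) := by
  obtain ⟨G, hG, hper⟩ := hf
  refine ⟨∑ i, vslash G (α i), IsPrim.sum _ fun i _ => hG.slash (hdet i), fun γ hγ τ v hv => ?_⟩
  obtain ⟨π, hπ⟩ := hperm γ hγ
  rw [vslash_sum]
  have h1 : (∑ i, vslash G (α i)) τ v = ∑ i, vslash G (α (π i)) τ v := by
    simp only [Finset.sum_apply]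
    exact (Equiv.sum_comp π (fun i => vslash G (α i) τ v)).symm
  rw [h1]
  simp only [Finset.sum_apply]
  rw [← Finset.sum_sub_distrib]
  refine M.sum_mem fun i _ => ?_
  obtain ⟨γ', hγ', hmul⟩ := hπ i
  rw [← vslash_mul, hmul, vslash_mul]
  exact hper γ' hγ' (α (π i) • τ) _ ((hint (π i)).mulVec hv)

/-- The period lattice. -/
def latticeL (N w : ℕ) (M : Submodule ℤ ℂ) : Submodule ℤ (CuspForm (Gamma0 N) ((w : ℤ) + 2)) :=
  AddSubgroup.toIntSubmodule
    { carrier := {f | InL N w M f}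
      add_mem' := fun {f g} hf hg => by
        have := InL.add hf hg
        simpa using this
      zero_mem' := by
        have := InL.zero N w M
        simpa using this
      neg_mem' := fun {f} hf => by
        have := InL.neg hf
        simpa using this }

theorem mem_latticeL {N w : ℕ} {M : Submodule ℤ ℂ} {f : CuspForm (Gamma0 N) ((w : ℤ) + 2)} :
    f ∈ latticeL N w M ↔ InL N w M f := Iff.rfl

end Fermat.Agent.S22Aux
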