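import Mathlib
import Fermat.Agent.S22Aux.Lattice

set_option autoImplicit false

namespace Fermat.Agent.S22Aux

open UpperHalfPlane Finset Matrix.SpecialLinearGroup CongruenceSubgroup
open scoped ModularForm MatrixGroups Manifold

section periods

variable {N w : ℕ} {f : CuspForm (Gamma0 N) ((w : ℤ) + 2)} {G : ℍ → (Fin 2 → ℂ) → ℂ}

theorem per_const (hG : IsPrim w f G) {γ : SL(2, ℤ)} (hγ : γ ∈ Gamma0 N) (τ τ' : ℍ) :
    vslash G (mapGL ℝ γ) τ - G τ = vslash G (mapGL ℝ γ) τ' - G τ' := by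
  have h1 := (hG.slash (det_mapGL_pos γ)).sub hG
  have h2 : (⇑f ∣[(w : ℤ) + 2] (mapGL ℝ γ : GL (Fin 2) ℝ)) = f :=
    SlashInvariantFormClass.slash_action_eq f _ (Subgroup.mem_map_of_mem _ hγ)
  rw [h2, sub_self] at h1
  exact h1.const τ τ'

/-- The period polynomial of `G` at `γ`. -/
noncomputable def per (G : ℍ → (Fin 2 → ℂ) → ℂ) (γ : SL(2, ℤ)) : (Fin 2 → ℂ) → ℂ :=
  vslash G (mapGL ℝ γ) I - G I

theorem per_eq (hG : IsPrim w f G) {γ : SL(2, ℤ)} (hγ : γ ∈ Gamma0 N) (τ : ℍ) :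
    vslash G (mapGL ℝ γ) τ - G τ = per G γ := per_const hG hγ τ I

theorem per_mem_homPoly (hG : IsPrim w f G) (γ : SL(2, ℤ)) : per G γ ∈ homPoly w :=
  Submodule.sub_mem _ ((hG.slash (det_mapGL_pos γ)).mem I) (hG.mem I)

theorem per_one (G : ℍ → (Fin 2 → ℂ) → ℂ) : per G 1 = 0 := by
  simp [per, vslash_one]

theorem per_mul (hG : IsPrim w f G) {γ δ : SL(2, ℤ)} (hγ : γ ∈ Gamma0 N) (v : Fin 2 → ℂ) :
    per G (γ * δ) v = per G γ ((cmat (mapGL ℝ δ)).mulVec v) + per G δ v := by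
  have h1 := congrFun (per_eq hG hγ ((mapGL ℝ δ : GL (Fin 2) ℝ) • I)) ((cmat (mapGL ℝ δ)).mulVec v)
  rw [← h1]
  simp only [per, map_mul, vslash_mul, Pi.sub_apply]
  simp only [vslash_apply]
  ring

theorem per_inv (hG : IsPrim w f G) {γ : SL(2, ℤ)} (hγ : γ ∈ Gamma0 N) (v : Fin 2 → ℂ) :
    per G γ⁻¹ v = - per G γ ((cmat (mapGL ℝ γ⁻¹)).mulVec v) := by
  have h1 := per_mul hG (δ := γ⁻¹) hγ v
  rw [mul_inv_cancel, per_one] at h1
  simp only [Pi.zero_apply] at h1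
  linear_combination -h1

end periods

theorem exists_finset_generators (N : ℕ) [NeZero N] :
    ∃ S : Finset (Gamma0 N), Subgroup.closure (S : Set (Gamma0 N)) = ⊤ := by
  have : Group.FG SL(2, ℤ) := by
    rw [Group.fg_iff]
    exact ⟨{ModularGroup.S, ModularGroup.T}, _root_.SpecialLinearGroup.SL2Z_generators, by simp⟩
  have : Group.FG (Gamma0 N) := Subgroup.fg_of_index_ne_zero (Gamma0 N)
  exact Group.fg_def.mp inferInstance

/-- A property of periods which holds on generators holds everywhere. -/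
theorem per_induction {N w : ℕ} {f : CuspForm (Gamma0 N) ((w : ℤ) + 2)}
    {G : ℍ → (Fin 2 → ℂ) → ℂ} (hG : IsPrim w f G) {S : Finset (Gamma0 N)}
    (hS : Subgroup.closure (S : Set (Gamma0 N)) = ⊤) (M : Submodule ℤ ℂ)
    (h : ∀ s ∈ S, ∀ v, IsIntVec v → per G (s : SL(2, ℤ)) v ∈ M) :
    ∀ γ ∈ Gamma0 N, ∀ v, IsIntVec v → per G γ v ∈ M := by
  intro γ hγ
  have hmem : (⟨γ, hγ⟩ : Gamma0 N) ∈ Subgroup.closure (S : Set (Gamma0 N)) := by
    rw [hS]; trivial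
  have key : ∀ x : Gamma0 N, x ∈ Subgroup.closure (S : Set (Gamma0 N)) →
      ∀ v, IsIntVec v → per G (x : SL(2, ℤ)) v ∈ M := by
    intro x hx
    induction hx using Subgroup.closure_induction with
    | mem x hx => exact h x hx
    | one => intro v _; simp [per_one]
    | mul x y _ _ hx hy =>
      intro v hv
      rw [Subgroup.coe_mul, per_mul hG x.2]
      exact M.add_mem (hx _ ((isIntMat_mapGL _).mulVec hv)) (hy v hv)
    | inv x _ hx =>
      intro v hv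
      rw [Subgroup.coe_inv, per_inv hG x.2]
      exact M.neg_mem (hx _ ((isIntMat_mapGL _).mulVec hv))
  exact key ⟨γ, hγ⟩ hmem

theorem perIn_of_per {N w : ℕ} {f : CuspForm (Gamma0 N) ((w : ℤ) + 2)}
    {G : ℍ → (Fin 2 → ℂ) → ℂ} (hG : IsPrim w f G) {M : Submodule ℤ ℂ}
    (h : ∀ γ ∈ Gamma0 N, ∀ v, IsIntVec v → per G γ v ∈ M) : PerIn N M G := by
  intro γ hγ τ v hv
  have := congrFun (per_eq hG hγ τ) v
  rw [Pi.sub_apply] at this
  rw [this]
  exact h γ hγ v hv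

/-- Every cusp form lies in some period lattice. -/
theorem exists_fg_inL {N : ℕ} [NeZero N] {w : ℕ} (f : CuspForm (Gamma0 N) ((w : ℤ) + 2)) :
    ∃ M : Submodule ℤ ℂ, M.FG ∧ InL N w M f := by
  obtain ⟨A, -, hG⟩ := exists_isPrim w f (CuspFormClass.holo f)
  set G : ℍ → (Fin 2 → ℂ) → ℂ :=
    fun τ v => ∑ n ∈ range (w + 1), A n τ * (v 0 ^ n * v 1 ^ (w - n)) with hGdef
  obtain ⟨S, hS⟩ := exists_finset_generators N
  choose c hc using fun γ : SL(2, ℤ) => mem_homPoly_iff.mp (per_mem_homPoly hG γ)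
  let T : Set ℂ := (fun p : (Gamma0 N) × ℕ => c (p.1 : SL(2, ℤ)) p.2) '' (S ×ˢ range (w + 1) : Finset _)
  refine ⟨Submodule.span ℤ T, Submodule.fg_span ((Finset.finite_toSet _).image _), G, hG, ?_⟩
  refine perIn_of_per hG (per_induction hG hS _ fun s hs v hv => ?_)
  rw [hc]
  refine Submodule.sum_mem _ fun n hn => ?_
  obtain ⟨x, hx⟩ := hv 0
  obtain ⟨y, hy⟩ := hv 1
  have h1 : c (s : SL(2, ℤ)) n * (v 0 ^ n * v 1 ^ (w - n)) =
      (x ^ n * y ^ (w - n)) • c (s : SL(2, ℤ)) n := by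
    rw [hx, hy, zsmul_eq_mul]
    push_cast
    ring
  rw [h1]
  refine Submodule.smul_mem _ _ (Submodule.subset_span ⟨(s, n), ?_, rfl⟩)
  simp only [Finset.coe_product, Set.mem_prod, Finset.mem_coe]
  exact ⟨hs, hn⟩

end Fermat.Agent.S22Aux
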