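import Mathlib
import Fermat.Agent.S22Aux.Periods

set_option autoImplicit false

namespace Fermat.Agent.S22Aux

open UpperHalfPlane Finset Matrix.SpecialLinearGroup CongruenceSubgroup
open scoped ModularForm MatrixGroups Manifold

theorem isIntVec_nat_one (t : ℕ) : IsIntVec ![(t : ℂ), 1] := by
  intro i
  fin_cases i
  · exact ⟨t, by simp⟩
  · exact ⟨1, by simp⟩

theorem per_add (G G' : ℍ → (Fin 2 → ℂ) → ℂ) (γ : SL(2, ℤ)) :
    per (G + G') γ = per G γ + per G' γ := by
  funext v
  simp only [per, vslash_apply, Pi.sub_apply, Pi.add_apply]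
  ring

theorem per_neg (G : ℍ → (Fin 2 → ℂ) → ℂ) (γ : SL(2, ℤ)) :
    per (-G) γ = - per G γ := by
  funext v
  simp only [per, vslash_apply, Pi.sub_apply, Pi.neg_apply]
  ring

theorem per_zero (γ : SL(2, ℤ)) : per 0 γ = 0 := by
  funext v
  simp [per, vslash_apply]

/-- Pairs (form, values of its periods at generators). -/
def graphX (N w : ℕ) (M : Submodule ℤ ℂ) (S : Finset (Gamma0 N)) :
    Submodule ℤ (CuspForm (Gamma0 N) ((w : ℤ) + 2) × (S × Fin (w + 1) → ℂ)) :=
  AddSubgroup.toIntSubmodule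
    { carrier := {p | ∃ G, IsPrim w p.1 G ∧ PerIn N M G ∧
        ∀ q : S × Fin (w + 1), p.2 q = per G ((q.1 : Gamma0 N) : SL(2, ℤ)) ![((q.2 : ℕ) : ℂ), 1]}
      add_mem' := by
        rintro p p' ⟨G, hG, hper, hq⟩ ⟨G', hG', hper', hq'⟩
        refine ⟨G + G', by simpa using hG.add hG', ?_, fun q => ?_⟩
        · intro γ hγ τ v hv
          have := M.add_mem (hper γ hγ τ v hv) (hper' γ hγ τ v hv)
          simp only [vslash_apply, Pi.add_apply] at this ⊢
          convert this using 1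
          ring
        · rw [per_add, Prod.snd_add, Pi.add_apply, Pi.add_apply, hq, hq']
      zero_mem' := by
        refine ⟨0, by simpa using IsPrim.zero w, fun γ _ τ v _ => by simp [vslash_apply],
          fun q => ?_⟩
        rw [per_zero]; rfl
      neg_mem' := by
        rintro p ⟨G, hG, hper, hq⟩
        refine ⟨-G, by simpa using hG.neg, ?_, fun q => ?_⟩
        · intro γ hγ τ v hv
          have := M.neg_mem (hper γ hγ τ v hv)
          simp only [vslash_apply, Pi.neg_apply] at this ⊢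
          convert this using 1
          ring
        · rw [per_neg, Prod.snd_neg, Pi.neg_apply, Pi.neg_apply, hq] }

theorem mem_graphX {N w : ℕ} {M : Submodule ℤ ℂ} {S : Finset (Gamma0 N)}
    {p : CuspForm (Gamma0 N) ((w : ℤ) + 2) × (S × Fin (w + 1) → ℂ)} :
    p ∈ graphX N w M S ↔ ∃ G, IsPrim w p.1 G ∧ PerIn N M G ∧
      ∀ q : S × Fin (w + 1), p.2 q = per G ((q.1 : Gamma0 N) : SL(2, ℤ)) ![((q.2 : ℕ) : ℂ), 1] :=
  Iff.rfl

/-- The period lattice is finitely generated. -/
theorem latticeL_fg {N : ℕ} [NeZero N] (w : ℕ) (M : Submodule ℤ ℂ) (hM : M.FG) :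
    (latticeL N w M).FG := by
  obtain ⟨S, hS⟩ := exists_finset_generators N
  set X := graphX N w M S with hX
  have hmap : (X.map (LinearMap.snd ℤ _ _)).FG := by
    have hpi : (Submodule.pi Set.univ (fun _ : S × Fin (w + 1) => M)).FG :=
      Submodule.fg_pi fun _ => hM
    refine hpi.of_le ?_
    rintro _ ⟨p, hp, rfl⟩
    obtain ⟨G, hG, hper, hq⟩ := mem_graphX.mp hp
    intro q _
    simp only [LinearMap.snd_apply]
    rw [hq]
    exact hper _ (q.1 : Gamma0 N).2 I _ (isIntVec_nat_one _)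
  have hker : X ⊓ LinearMap.ker (LinearMap.snd ℤ _ _) = ⊥ := by
    rw [eq_bot_iff]
    rintro p ⟨hp, hp0⟩
    obtain ⟨G, hG, hper, hq⟩ := mem_graphX.mp hp
    have hp0' : p.2 = 0 := hp0
    have hgen : ∀ s ∈ S, ∀ v, IsIntVec v → per G ((s : Gamma0 N) : SL(2, ℤ)) v ∈ (⊥ : Submodule ℤ ℂ) := by
      intro s hs v _
      have : per G ((s : Gamma0 N) : SL(2, ℤ)) = 0 := by
        refine homPoly_eq_zero_of_vanish (per_mem_homPoly hG _) fun t => ?_
        rw [← hq (⟨s, hs⟩, t), hp0']
        rfl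
      rw [this]
      simp
    have hall := per_induction hG hS ⊥ hgen
    have hall' : ∀ γ ∈ Gamma0 N, per G γ = 0 := by
      intro γ hγ
      refine homPoly_eq_zero_of_vanish (per_mem_homPoly hG _) fun t => ?_
      simpa using hall γ hγ _ (isIntVec_nat_one t)
    have hinv : ∀ γ ∈ Gamma0 N, vslash G (mapGL ℝ γ) = G := by
      intro γ hγ
      funext τ
      have := per_eq hG hγ τ
      rw [hall' γ hγ, sub_eq_zero] at this
      exact this
    have hf0 : p.1 = 0 := eq_zero_of_invariant_prim p.1 hG hinv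
    rw [Submodule.mem_bot]
    exact Prod.ext hf0 hp0'
  have hXfg : X.FG := Submodule.fg_of_fg_map_of_fg_inf_ker (LinearMap.snd ℤ _ _) hmap
    (by rw [hker]; exact Submodule.fg_bot)
  have hL : latticeL N w M = X.map (LinearMap.fst ℤ _ _) := by
    ext f
    constructor
    · rintro ⟨G, hG, hper⟩
      exact ⟨(f, fun q => per G ((q.1 : Gamma0 N) : SL(2, ℤ)) ![((q.2 : ℕ) : ℂ), 1]),
        mem_graphX.mpr ⟨G, hG, hper, fun q => rfl⟩, rfl⟩
    · rintro ⟨p, hp, rfl⟩
      obtain ⟨G, hG, hper, -⟩ := mem_graphX.mp hp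
      exact ⟨G, hG, hper⟩
  rw [hL]
  exact hXfg.map _

end Fermat.Agent.S22Aux
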