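import Mathlib
import Fermat.Prelude.Def_CuspForm_HeckeAlgebra
import Fermat.Prelude.Sol.S_ModularForm_heckeT_slash_eq_self_of_mem_Gamma0
import Fermat.Agent.S22Aux.LatticeFG

set_option autoImplicit false

namespace Fermat.Agent.S22Aux

open UpperHalfPlane Finset Matrix.SpecialLinearGroup CongruenceSubgroup
open scoped ModularForm MatrixGroups Manifold
open P2MW.S_ModularForm_heckeT_slash_eq_self_of_mem_Gamma0.ModularForm.HeckeSlashInvariance

theorem isIntMat_heckeMatrix {p : ℕ} (hp : p ≠ 0) (j : ℕ) : IsIntMat (ModularForm.heckeMatrix p j) := by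
  intro a b
  rw [ModularForm.val_heckeMatrix hp]
  fin_cases a <;> fin_cases b
  · exact ⟨1, by simp⟩
  · exact ⟨j, by simp⟩
  · exact ⟨0, by simp⟩
  · exact ⟨p, by simp⟩

theorem isIntMat_heckeDiagMatrix {p : ℕ} (hp : p ≠ 0) : IsIntMat (ModularForm.heckeDiagMatrix p) := by
  intro a b
  rw [ModularForm.val_heckeDiagMatrix hp]
  fin_cases a <;> fin_cases b
  · exact ⟨p, by simp⟩
  · exact ⟨0, by simp⟩
  · exact ⟨0, by simp⟩
  · exact ⟨1, by simp⟩

theorem InL.heckeT {N w : ℕ} {M : Submodule ℤ ℂ} {f : ℍ → ℂ} {p : ℕ} (hp : p.Prime)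
    (hpN : ¬ p ∣ N) (hf : InL N w M f) : InL N w M (ModularForm.heckeT ((w : ℤ) + 2) p f) := by
  have : Fact p.Prime := ⟨hp⟩
  have : NeZero p := ⟨hp.ne_zero⟩
  rw [heckeT_eq_sum_onePoint]
  refine InL.hecke (heckeRep p) (fun x => ?_) (fun x => ?_) (fun γ hγ => ?_) hf
  · induction x using OnePoint.rec with
    | infty => exact ModularForm.det_heckeDiagMatrix_pos p
    | coe j => exact ModularForm.det_heckeMatrix_pos p _
  · induction x using OnePoint.rec with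
    | infty => exact isIntMat_heckeDiagMatrix hp.ne_zero
    | coe j => exact isIntMat_heckeMatrix hp.ne_zero _
  · have hcN : (N : ℤ) ∣ γ 1 0 :=
      (ZMod.intCast_zmod_eq_zero_iff_dvd _ _).mp (Gamma0_mem.mp hγ)
    refine ⟨MulAction.toPerm (redMatrix p γ), fun x => ?_⟩
    obtain ⟨g', hg', hmul⟩ := heckeRep_mul hpN γ hcN x
    exact ⟨g', Gamma0_mem.mpr ((ZMod.intCast_zmod_eq_zero_iff_dvd _ _).mpr hg'), hmul⟩

theorem InL.heckeU {N w : ℕ} {M : Submodule ℤ ℂ} {f : ℍ → ℂ} {p : ℕ} (hp : p ≠ 0)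
    (hpN : p ∣ N) (hf : InL N w M f) : InL N w M (ModularForm.heckeU ((w : ℤ) + 2) p f) := by
  have : NeZero p := ⟨hp⟩
  rw [heckeU_eq_sum_zmod]
  refine InL.hecke (fun x : ZMod p => ModularForm.heckeMatrix p x.val)
    (fun x => ModularForm.det_heckeMatrix_pos p _) (fun x => isIntMat_heckeMatrix hp _)
    (fun γ hγ => ?_) hf
  have hcN : (N : ℤ) ∣ γ 1 0 :=
    (ZMod.intCast_zmod_eq_zero_iff_dvd _ _).mp (Gamma0_mem.mp hγ)
  have hc : (p : ℤ) ∣ γ 1 0 := (Int.natCast_dvd_natCast.mpr hpN).trans hcN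
  refine ⟨affinePerm γ ((ZMod.intCast_zmod_eq_zero_iff_dvd _ _).mpr hc), fun x => ?_⟩
  obtain ⟨g', hg', hmul⟩ := heckeMatrix_mul_of_dvd γ hc x
  refine ⟨g', ?_, hmul⟩
  rw [Gamma0_mem, hg']
  push_cast
  rw [Gamma0_mem.mp hγ, mul_zero]

end Fermat.Agent.S22Aux
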